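/-
S16 / (W) finite Weil representation (helper45), part 1: Gauss sums of a nondegenerate quadratic
form on a finite `ZMod p`-vector space `D`.

* `sum_e_polar` : orthogonality `∑_y e(β(y,w)) = |D|·[w = 0]`.
* `sum_e_quad_sub_polar` : completing the square.
* `gaussQ Q b = ∑_x e(b Q(x))`; `gaussQ_mul_gaussQ_neg : G(b) G(-b) = |D|`.
* `gaussQ_eq_one` (W3): if `|D| = p²` then `G(b) = G(1)` for all `b ≠ 0`.
Mathlib only.
-/
import Mathlib

set_option autoImplicit false

namespace Fermat.Agent.S16.Weil45

open scoped BigOperators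
open QuadraticMap

variable {p : ℕ} [Fact p.Prime]
variable {D : Type*} [AddCommGroup D] [Module (ZMod p) D] [Fintype D]

/-- the standard additive character of `ZMod p` -/
noncomputable abbrev ee (p : ℕ) [Fact p.Prime] : AddChar (ZMod p) ℂ := ZMod.stdAddChar (N := p)

theorem ee_add (a b : ZMod p) : ee p (a + b) = ee p a * ee p b := AddChar.map_add_eq_mul _ _ _

theorem ee_zero : ee p (0 : ZMod p) = 1 := AddChar.map_zero_eq_one _

theorem ee_sum {ι : Type*} (s : Finset ι) (f : ι → ZMod p) :
    ee p (∑ i ∈ s, f i) = ∏ i ∈ s, ee p (f i) := by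
  classical
  induction s using Finset.induction_on with
  | empty => simp
  | insert a s ha ih => rw [Finset.sum_insert ha, Finset.prod_insert ha, ee_add, ih]

theorem ee_eq_one_iff (a : ZMod p) : ee p a = 1 ↔ a = 0 := by
  constructor
  · intro h
    apply ZMod.injective_stdAddChar (N := p)
    rw [h]; exact (AddChar.map_zero_eq_one _).symm
  · rintro rfl; exact ee_zero

theorem sum_ee (c : ZMod p) : ∑ t : ZMod p, ee p (c * t) = if c = 0 then (p : ℂ) else 0 := by
  split_ifs with h
  · subst h
    simp
  · have hne : (ee p).mulShift c ≠ 1 := by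
      intro h1
      have := DFunLike.congr_fun h1 1
      rw [AddChar.mulShift_apply, mul_one, AddChar.one_apply, ee_eq_one_iff] at this
      exact h this
    have := AddChar.sum_eq_zero_of_ne_one hne
    simpa [AddChar.mulShift_apply] using this

variable (Q : QuadraticForm (ZMod p) D)

/-- Nondegeneracy of the polar form. -/
def Nondeg : Prop := ∀ w : D, (∀ y : D, polar Q y w = 0) → w = 0

/-- the additive character `y ↦ e(β(y,w))` of `D` -/
noncomputable def polarChar (w : D) : AddChar D ℂ :=
  (ee p).compAddMonoidHom ((polarBilin Q).flip w).toAddMonoidHom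

omit [Fintype D] in
theorem polarChar_apply (w y : D) : polarChar Q w y = ee p (polar Q y w) := rfl

variable {Q}

/-- Orthogonality: `∑_y e(β(y,w)) = |D|·[w = 0]`. -/
theorem sum_e_polar [DecidableEq D] (hQ : Nondeg Q) (w : D) :
    ∑ y : D, ee p (polar Q y w) = if w = 0 then (Fintype.card D : ℂ) else 0 := by
  split_ifs with h
  · subst h
    simp
  · have hne : polarChar Q w ≠ 1 := by
      intro h1
      apply h
      apply hQ
      intro y
      have := DFunLike.congr_fun h1 y
      rwa [polarChar_apply, AddChar.one_apply, ee_eq_one_iff] at this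
    have := AddChar.sum_eq_zero_of_ne_one hne
    simpa [polarChar_apply] using this

variable (Q)

/-- The Gauss sum `G(b) = ∑_x e(b Q(x))`. -/
noncomputable def gaussQ (b : ZMod p) : ℂ := ∑ x : D, ee p (b * Q x)

variable {Q}

/-- Completing the square: `∑_y e(λ Q(y) - β(y,w)) = G(λ) e(-Q(w)/λ)`. -/
theorem sum_e_quad_sub_polar {l : ZMod p} (hl : l ≠ 0) (w : D) :
    ∑ y : D, ee p (l * Q y - polar Q y w) = gaussQ Q l * ee p (-(Q w) / l) := by
  unfold gaussQ
  rw [Finset.sum_mul]
  refine Fintype.sum_equiv (Equiv.addRight (-(l⁻¹ • w))) _ _ fun y => ?_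
  rw [← ee_add]
  congr 1
  simp only [Equiv.coe_addRight]
  have h1 : Q (y + -(l⁻¹ • w)) = Q y + l⁻¹ * l⁻¹ * Q w - l⁻¹ * polar Q y w := by
    rw [QuadraticMap.map_add (⇑Q), QuadraticMap.map_neg, QuadraticMap.map_smul, polar_neg_right,
      polar_smul_right, smul_eq_mul, smul_eq_mul]
    ring
  rw [h1]
  field_simp
  ring

/-- `G(b) G(-b) = |D|` for `b ≠ 0`. -/
theorem gaussQ_mul_gaussQ_neg [DecidableEq D] (hQ : Nondeg Q) {b : ZMod p} (hb : b ≠ 0) :
    gaussQ Q b * gaussQ Q (-b) = (Fintype.card D : ℂ) := by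
  unfold gaussQ
  rw [Finset.sum_mul_sum]
  -- ∑_x ∑_y e(b Q x - b Q y); substitute x = y + t
  have h1 : ∀ y : D, ∑ x : D, ee p (b * Q x) * ee p (-b * Q y) =
      ∑ t : D, ee p (b * Q t) * ee p (polar Q y (b • t)) := by
    intro y
    refine (Fintype.sum_equiv (Equiv.addRight y) _ _ fun t => ?_).symm
    rw [← ee_add, ← ee_add]
    congr 1
    simp only [Equiv.coe_addRight]
    rw [QuadraticMap.map_add (⇑Q), polar_smul_right, smul_eq_mul, polar_comm]
    ring
  rw [Finset.sum_comm]
  rw [Finset.sum_congr rfl fun y _ => h1 y, Finset.sum_comm]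
  have h2 : ∀ t : D, ∑ y : D, ee p (b * Q t) * ee p (polar Q y (b • t)) =
      if t = 0 then (Fintype.card D : ℂ) else 0 := by
    intro t
    rw [← Finset.mul_sum, sum_e_polar hQ]
    have hbt : b • t = 0 ↔ t = 0 := by
      constructor
      · intro h
        rcases smul_eq_zero.mp h with h | h
        · exact absurd h hb
        · exact h
      · rintro rfl; exact smul_zero _
    by_cases ht : t = 0
    · subst ht
      simp
    · rw [if_neg ht, if_neg (mt hbt.mp ht), mul_zero]
  rw [Finset.sum_congr rfl fun t _ => h2 t, Finset.sum_ite_eq' Finset.univ (0 : D)]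
  simp

section OneDim

/-- the quadratic character of `ZMod p` with values in `ℂ` -/
noncomputable def chiC (p : ℕ) [Fact p.Prime] : MulChar (ZMod p) ℂ :=
  (quadraticChar (ZMod p)).ringHomComp (Int.castRingHom ℂ)

theorem chiC_apply (a : ZMod p) : chiC p a = ((quadraticChar (ZMod p) a : ℤ) : ℂ) := rfl

theorem chiC_sq {a : ZMod p} (ha : a ≠ 0) : chiC p a ^ 2 = 1 := by
  rw [chiC_apply, ← Int.cast_pow, quadraticChar_sq_one ha, Int.cast_one]

/-- the one-dimensional quadratic Gauss sum `∑_t e(c t²)` -/
noncomputable def g1 (c : ZMod p) : ℂ := ∑ t : ZMod p, ee p (c * (t * t))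

theorem g1_eq (hp2 : p ≠ 2) {c : ZMod p} (hc : c ≠ 0) :
    g1 c = chiC p c * gaussSum (chiC p) (ee p) := by
  classical
  have hchar : ringChar (ZMod p) ≠ 2 := by rwa [ZMod.ringChar_zmod_n]
  -- regroup by the value of the square
  have h1 : g1 c = ∑ s : ZMod p, ((quadraticChar (ZMod p) s + 1 : ℤ) : ℂ) * ee p (c * s) := by
    unfold g1
    rw [← Finset.sum_fiberwise Finset.univ (fun t : ZMod p => t * t)
      (fun t => ee p (c * (t * t)))]
    refine Finset.sum_congr rfl fun s _ => ?_
    have h2 : ∀ t ∈ Finset.univ.filter (fun t : ZMod p => t * t = s),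
        ee p (c * (t * t)) = ee p (c * s) := by
      intro t ht
      rw [(Finset.mem_filter.mp ht).2]
    rw [Finset.sum_congr rfl h2, Finset.sum_const, nsmul_eq_mul]
    congr 1
    have h3 := quadraticChar_card_sqrts hchar s
    have h4 : ({x : ZMod p | x ^ 2 = s}.toFinset) = Finset.univ.filter (fun t : ZMod p => t * t = s) := by
      ext t
      simp [pow_two]
    rw [h4] at h3
    rw [← h3]
    simp
  have h5 : ∑ s : ZMod p, ee p (c * s) = 0 := by
    rw [sum_ee, if_neg hc]
  have h6 : ∑ s : ZMod p, ((quadraticChar (ZMod p) s + 1 : ℤ) : ℂ) * ee p (c * s) =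
      gaussSum (chiC p) ((ee p).mulShift c) := by
    unfold gaussSum
    rw [← add_zero (∑ a : ZMod p, chiC p a * ((ee p).mulShift c) a), ← h5, ← Finset.sum_add_distrib]
    refine Finset.sum_congr rfl fun s _ => ?_
    rw [AddChar.mulShift_apply, chiC_apply]
    push_cast
    ring
  rw [h1, h6]
  have h7 := gaussSum_mulShift (chiC p) (ee p) (Units.mk0 c hc)
  rw [Units.val_mk0] at h7
  rw [← h7, ← mul_assoc, ← pow_two, chiC_sq hc, one_mul]

end OneDim

section TwoDim

variable [DecidableEq D]

omit [DecidableEq D] in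
/-- **(W3)** For a nondegenerate quadratic form on a `ZMod p`-module with `p²` elements
(`p` odd) the Gauss sum `G(b) = ∑_x e(b Q(x))` does not depend on `b ≠ 0`. -/
theorem gaussQ_eq_one (hp2 : p ≠ 2) (hQ : Nondeg Q) (hcard : Fintype.card D = p ^ 2)
    {b : ZMod p} (hb : b ≠ 0) : gaussQ Q b = gaussQ Q 1 := by
  classical
  have : Invertible (2 : ZMod p) := by
    refine invertibleOfNonzero ?_
    intro h
    have h2 : ((2 : ℕ) : ZMod p) = 0 := by exact_mod_cast h
    rw [ZMod.natCast_eq_zero_iff] at h2
    exact hp2 ((Nat.prime_dvd_prime_iff_eq Fact.out Nat.prime_two).mp h2)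
  have : Module.Finite (ZMod p) D := Module.Finite.of_finite
  obtain ⟨w, ⟨Φ⟩⟩ := QuadraticForm.equivalent_weightedSumSquares Q
  have hrank : Module.finrank (ZMod p) D = 2 := by
    have h1 := Module.card_eq_pow_finrank (K := ZMod p) (V := D)
    rw [hcard, ZMod.card] at h1
    exact (Nat.pow_right_injective (Fact.out : p.Prime).two_le h1).symm
  -- the coefficients are nonzero
  have hw : ∀ i, w i ≠ 0 := by
    intro i hi
    set u : D := Φ.symm (Pi.single i 1) with hu
    have hu0 : u = 0 := by
      apply hQ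
      intro y
      have e1 : polar Q y u =
          polar (weightedSumSquares (ZMod p) w) (Φ y) (Pi.single i 1) := by
        unfold polar
        have hΦu : Φ u = Pi.single i 1 := by rw [hu]; exact Φ.apply_symm_apply _
        rw [← hΦu, ← map_add, Φ.map_app, Φ.map_app, Φ.map_app]
      rw [e1]
      unfold polar
      simp only [weightedSumSquares_apply, smul_eq_mul, Pi.add_apply]
      rw [← Finset.sum_sub_distrib, ← Finset.sum_sub_distrib]
      refine Finset.sum_eq_zero fun j _ => ?_
      by_cases hji : j = i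
      · subst hji
        rw [hi]; ring
      · rw [Pi.single_eq_of_ne hji]; ring
    have : (Pi.single i (1 : ZMod p) : Fin (Module.finrank (ZMod p) D) → ZMod p) = 0 := by
      have h2 : Φ u = 0 := by rw [hu0]; exact map_zero _
      rw [hu] at h2
      rwa [Φ.apply_symm_apply] at h2
    have h3 := congrFun this i
    simp at h3
  -- product formula
  have key : ∀ c : ZMod p, c ≠ 0 → gaussQ Q c =
      ∏ i, (chiC p c * (chiC p (w i) * gaussSum (chiC p) (ee p))) := by
    intro c hc
    unfold gaussQ
    have e1 : ∑ x : D, ee p (c * Q x) =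
        ∑ v : Fin (Module.finrank (ZMod p) D) → ZMod p,
          ee p (c * weightedSumSquares (ZMod p) w v) := by
      refine Fintype.sum_equiv Φ.toLinearEquiv.toEquiv _ _ fun x => ?_
      have : weightedSumSquares (ZMod p) w (Φ x) = Q x := Φ.map_app x
      simp only [LinearEquiv.coe_toEquiv]
      change ee p (c * Q x) = ee p (c * weightedSumSquares (ZMod p) w (Φ x))
      rw [this]
    rw [e1]
    have e2 : ∀ v : Fin (Module.finrank (ZMod p) D) → ZMod p,
        ee p (c * weightedSumSquares (ZMod p) w v) = ∏ i, ee p (c * w i * (v i * v i)) := by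
      intro v
      rw [weightedSumSquares_apply, Finset.mul_sum, ee_sum]
      refine Finset.prod_congr rfl fun i _ => ?_
      rw [smul_eq_mul, mul_assoc]
    rw [Finset.sum_congr rfl fun v _ => e2 v]
    rw [← Fintype.prod_sum (fun i (t : ZMod p) => ee p (c * w i * (t * t)))]
    refine Finset.prod_congr rfl fun i _ => ?_
    have := g1_eq hp2 (mul_ne_zero hc (hw i))
    unfold g1 at this
    rw [this, map_mul, mul_assoc]
  rw [key b hb, key 1 one_ne_zero]
  simp only [Finset.prod_mul_distrib, Finset.prod_const, Finset.card_univ, Fintype.card_fin, hrank]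
  rw [chiC_sq hb, chiC_sq one_ne_zero]

/-- `G(1)² = p²`. -/
theorem gaussQ_one_sq (hp2 : p ≠ 2) (hQ : Nondeg Q) (hcard : Fintype.card D = p ^ 2) :
    gaussQ Q 1 ^ 2 = (p : ℂ) ^ 2 := by
  have h1 := gaussQ_mul_gaussQ_neg hQ (one_ne_zero : (1 : ZMod p) ≠ 0)
  rw [gaussQ_eq_one hp2 hQ hcard (neg_ne_zero.mpr one_ne_zero), hcard] at h1
  rw [pow_two, h1]
  push_cast
  ring

end TwoDim

end Fermat.Agent.S16.Weil45
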