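/-
S16 / (W) finite Weil representation (helper45), part 2: the Weil representation of
`SL(2, ZMod p)` on functions `D → ℂ`, for a nondegenerate quadratic form `Q` on a
`ZMod p`-module `D` with `p²` elements (`p` odd).

* `opM Q a b c d` : the operator attached to a matrix `(a b; c d)`;
* `opM_comp` : composition law (W1) for matrices of determinant 1;
* `rho Q g` for `g : SL(2, ZMod p)`, `rho_mul`, `rho_one`, `rho_apply_zero_of_upper` (W2),
  `rho_T`, `rho_S`.
Mathlib only.
-/
import Mathlib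
import Fermat.Agent.S16.Weil45.Gauss

set_option autoImplicit false

namespace Fermat.Agent.S16.Weil45

open scoped BigOperators MatrixGroups
open QuadraticMap

variable {p : ℕ} [Fact p.Prime]
variable {D : Type*} [AddCommGroup D] [Module (ZMod p) D] [Fintype D] [DecidableEq D]
variable (Q : QuadraticForm (ZMod p) D)

/-- The sign `ε = G(1)/p` of the quadratic module. -/
noncomputable def eps : ℂ := gaussQ Q 1 / p

variable {Q}

theorem eps_sq (hp2 : p ≠ 2) (hQ : Nondeg Q) (hcard : Fintype.card D = p ^ 2) :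
    eps Q ^ 2 = 1 := by
  have hp0 : (p : ℂ) ≠ 0 := Nat.cast_ne_zero.mpr (Fact.out : p.Prime).ne_zero
  unfold eps
  rw [div_pow, gaussQ_one_sq hp2 hQ hcard, div_self (pow_ne_zero 2 hp0)]

omit [DecidableEq D] in
theorem gaussQ_eq_eps_mul (hp2 : p ≠ 2) (hQ : Nondeg Q) (hcard : Fintype.card D = p ^ 2)
    {b : ZMod p} (hb : b ≠ 0) : gaussQ Q b = eps Q * p := by
  have hp0 : (p : ℂ) ≠ 0 := Nat.cast_ne_zero.mpr (Fact.out : p.Prime).ne_zero
  rw [gaussQ_eq_one hp2 hQ hcard hb, eps, div_mul_cancel₀ _ hp0]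

variable (Q)

/-- The operator attached to the matrix `(a b; c d)`. -/
noncomputable def opM (a b c d : ZMod p) (f : D → ℂ) (x : D) : ℂ :=
  if c = 0 then ee p (a * b * Q x) * f (a • x)
  else (eps Q / p) * ∑ y : D, ee p ((a * Q x - polar Q x y + d * Q y) / c) * f y

variable {Q}

omit [DecidableEq D] in
theorem opM_of_eq_zero (a b d : ZMod p) (f : D → ℂ) (x : D) :
    opM Q a b 0 d f x = ee p (a * b * Q x) * f (a • x) := by
  rw [opM, if_pos rfl]

omit [DecidableEq D] in
theorem opM_of_ne_zero (a b : ZMod p) {c : ZMod p} (hc : c ≠ 0) (d : ZMod p) (f : D → ℂ) (x : D) :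
    opM Q a b c d f x =
      (eps Q / p) * ∑ y : D, ee p ((a * Q x - polar Q x y + d * Q y) / c) * f y := by
  rw [opM, if_neg hc]

omit [Fintype D] [DecidableEq D] in
theorem Q_smul (a : ZMod p) (x : D) : Q (a • x) = a * a * Q x := by
  rw [QuadraticMap.map_smul, smul_eq_mul]

omit [DecidableEq D] in
/-- The inner sum in the composition of two "big cell" operators. -/
theorem inner_sum {a₁ c₁ d₁ a₂ c₂ d₂ : ZMod p} (hc₁ : c₁ ≠ 0) (hc₂ : c₂ ≠ 0) (x z : D) :
    ∑ y : D, ee p ((a₁ * Q x - polar Q x y + d₁ * Q y) / c₁) *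
        ee p ((a₂ * Q y - polar Q y z + d₂ * Q z) / c₂) =
      ee p (a₁ * Q x / c₁ + d₂ * Q z / c₂) *
        ∑ y : D, ee p ((d₁ / c₁ + a₂ / c₂) * Q y - polar Q y (c₁⁻¹ • x + c₂⁻¹ • z)) := by
  rw [Finset.mul_sum]
  refine Finset.sum_congr rfl fun y _ => ?_
  rw [← ee_add, ← ee_add]
  congr 1
  rw [polar_add_right, polar_smul_right, polar_smul_right, smul_eq_mul, smul_eq_mul,
    polar_comm (⇑Q) y x]
  field_simp
  ring

/-- **(W1)** The composition law. -/
theorem opM_comp (hp2 : p ≠ 2) (hQ : Nondeg Q) (hcard : Fintype.card D = p ^ 2)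
    {a₁ b₁ c₁ d₁ a₂ b₂ c₂ d₂ : ZMod p} (h₁ : a₁ * d₁ - b₁ * c₁ = 1) (h₂ : a₂ * d₂ - b₂ * c₂ = 1)
    (f : D → ℂ) (x : D) :
    opM Q a₁ b₁ c₁ d₁ (opM Q a₂ b₂ c₂ d₂ f) x =
      opM Q (a₁ * a₂ + b₁ * c₂) (a₁ * b₂ + b₁ * d₂) (c₁ * a₂ + d₁ * c₂) (c₁ * b₂ + d₁ * d₂) f x := by
  have hp0 : (p : ℂ) ≠ 0 := Nat.cast_ne_zero.mpr (Fact.out : p.Prime).ne_zero
  have heps := eps_sq hp2 hQ hcard
  by_cases hc₁ : c₁ = 0
  · subst hc₁
    have had₁ : a₁ * d₁ = 1 := by linear_combination h₁
    have ha₁ : a₁ ≠ 0 := left_ne_zero_of_mul_eq_one had₁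
    have hd₁ : d₁ = a₁⁻¹ := eq_inv_of_mul_eq_one_right had₁
    subst hd₁
    by_cases hc₂ : c₂ = 0
    · -- Case A
      subst hc₂
      have had₂ : a₂ * d₂ = 1 := by linear_combination h₂
      have ha₂ : a₂ ≠ 0 := left_ne_zero_of_mul_eq_one had₂
      have hd₂ : d₂ = a₂⁻¹ := eq_inv_of_mul_eq_one_right had₂
      subst hd₂
      have hc : (0 : ZMod p) * a₂ + a₁⁻¹ * 0 = 0 := by ring
      rw [hc, opM_of_eq_zero, opM_of_eq_zero, opM_of_eq_zero, ← mul_assoc, ← ee_add, Q_smul,
        smul_smul]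
      congr 2
      · field_simp
        ring
      · congr 1
        ring
    · -- Case B
      have hc : (0 : ZMod p) * a₂ + a₁⁻¹ * c₂ ≠ 0 := by
        rw [zero_mul, zero_add]
        exact mul_ne_zero (inv_ne_zero ha₁) hc₂
      rw [opM_of_eq_zero, opM_of_ne_zero _ _ hc₂, opM_of_ne_zero _ _ hc, ← mul_assoc,
        mul_comm (ee p _) (eps Q / p), mul_assoc, Finset.mul_sum]
      congr 1
      refine Finset.sum_congr rfl fun y _ => ?_
      rw [← mul_assoc, ← ee_add, Q_smul, polar_smul_left, smul_eq_mul]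
      congr 2
      simp only [zero_mul, zero_add]
      field_simp
      ring
  · have hb₁ : b₁ = (a₁ * d₁ - 1) / c₁ := by
      field_simp
      linear_combination -h₁
    subst hb₁
    by_cases hc₂ : c₂ = 0
    · -- Case C
      subst hc₂
      have had₂ : a₂ * d₂ = 1 := by linear_combination h₂
      have ha₂ : a₂ ≠ 0 := left_ne_zero_of_mul_eq_one had₂
      have hd₂ : d₂ = a₂⁻¹ := eq_inv_of_mul_eq_one_right had₂
      subst hd₂
      have hc : c₁ * a₂ + d₁ * 0 ≠ 0 := by
        rw [mul_zero, add_zero]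
        exact mul_ne_zero hc₁ ha₂
      rw [opM_of_ne_zero _ _ hc₁, opM_of_ne_zero _ _ hc]
      congr 1
      refine Fintype.sum_equiv (LinearEquiv.smulOfUnit (Units.mk0 a₂ ha₂)).toEquiv _ _ fun y => ?_
      rw [opM_of_eq_zero]
      have hy : (LinearEquiv.smulOfUnit (Units.mk0 a₂ ha₂)).toEquiv y = a₂ • y := rfl
      rw [hy, ← mul_assoc, ← ee_add, Q_smul, polar_smul_right, smul_eq_mul]
      congr 2
      field_simp
      ring
    · have hb₂ : b₂ = (a₂ * d₂ - 1) / c₂ := by
        field_simp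
        linear_combination -h₂
      subst hb₂
      -- expand the double sum
      have hexp : opM Q a₁ ((a₁ * d₁ - 1) / c₁) c₁ d₁ (opM Q a₂ ((a₂ * d₂ - 1) / c₂) c₂ d₂ f) x =
          (eps Q / p) ^ 2 * ∑ z : D, f z * (ee p (a₁ * Q x / c₁ + d₂ * Q z / c₂) *
            ∑ y : D, ee p ((d₁ / c₁ + a₂ / c₂) * Q y - polar Q y (c₁⁻¹ • x + c₂⁻¹ • z))) := by
        rw [opM_of_ne_zero _ _ hc₁]
        have hy : ∀ y : D, ee p ((a₁ * Q x - polar Q x y + d₁ * Q y) / c₁) *
            opM Q a₂ ((a₂ * d₂ - 1) / c₂) c₂ d₂ f y =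
            (eps Q / p) * ∑ z : D, (ee p ((a₁ * Q x - polar Q x y + d₁ * Q y) / c₁) *
              ee p ((a₂ * Q y - polar Q y z + d₂ * Q z) / c₂)) * f z := by
          intro y
          rw [opM_of_ne_zero _ _ hc₂, mul_left_comm, Finset.mul_sum]
          congr 1
          refine Finset.sum_congr rfl fun z _ => ?_
          rw [mul_assoc]
        rw [Finset.sum_congr rfl fun y _ => hy y, ← Finset.mul_sum, ← mul_assoc, ← pow_two]
        congr 1
        rw [Finset.sum_comm]
        refine Finset.sum_congr rfl fun z _ => ?_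
        rw [← Finset.sum_mul, mul_comm, inner_sum hc₁ hc₂]
      rw [hexp]
      by_cases hc : c₁ * a₂ + d₁ * c₂ = 0
      · -- Case E
        have hl : d₁ / c₁ + a₂ / c₂ = 0 := by
          field_simp
          linear_combination hc
        rw [hc, opM_of_eq_zero]
        have hin : ∀ z : D, ∑ y : D, ee p ((d₁ / c₁ + a₂ / c₂) * Q y -
            polar Q y (c₁⁻¹ • x + c₂⁻¹ • z)) =
            if z = (-(c₂ / c₁)) • x then (Fintype.card D : ℂ) else 0 := by
          intro z
          have h1 : ∀ y : D, ee p ((d₁ / c₁ + a₂ / c₂) * Q y - polar Q y (c₁⁻¹ • x + c₂⁻¹ • z)) =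
              ee p (polar Q y (-(c₁⁻¹ • x + c₂⁻¹ • z))) := by
            intro y
            rw [hl, zero_mul, zero_sub, polar_neg_right]
          rw [Finset.sum_congr rfl fun y _ => h1 y, sum_e_polar hQ]
          have hiff : -(c₁⁻¹ • x + c₂⁻¹ • z) = 0 ↔ z = (-(c₂ / c₁)) • x := by
            constructor
            · intro h
              have h2 : c₂⁻¹ • z = -(c₁⁻¹ • x) := by
                have := neg_eq_zero.mp h
                exact eq_neg_of_add_eq_zero_right this
              have h3 : z = c₂ • (c₂⁻¹ • z) := by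
                rw [smul_smul, mul_inv_cancel₀ hc₂, one_smul]
              rw [h3, h2, smul_neg, smul_smul, neg_smul, div_eq_mul_inv]
            · rintro rfl
              rw [smul_smul, neg_eq_zero, ← add_smul]
              have : c₁⁻¹ + c₂⁻¹ * -(c₂ / c₁) = 0 := by
                field_simp
                ring
              rw [this, zero_smul]
          by_cases hz : z = (-(c₂ / c₁)) • x
          · rw [if_pos hz, if_pos (hiff.mpr hz)]
          · rw [if_neg hz, if_neg (mt hiff.mp hz)]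
        simp only [hin, mul_ite, mul_zero]
        rw [Finset.sum_ite_eq' Finset.univ ((-(c₂ / c₁)) • x), if_pos (Finset.mem_univ _), hcard]
        have ha : a₁ * a₂ + (a₁ * d₁ - 1) / c₁ * c₂ = -(c₂ / c₁) := by
          have ha₂ : a₂ = -(d₁ * c₂) / c₁ := by
            field_simp
            linear_combination hc
          rw [ha₂]
          field_simp
          ring
        rw [ha, Q_smul]
        have hexp2 : ee p (a₁ * Q x / c₁ + d₂ * (-(c₂ / c₁) * -(c₂ / c₁) * Q x) / c₂) =
            ee p (-(c₂ / c₁) * (a₁ * ((a₂ * d₂ - 1) / c₂) + (a₁ * d₁ - 1) / c₁ * d₂) * Q x) := by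
          congr 1
          have ha₂ : a₂ = -(d₁ * c₂) / c₁ := by
            field_simp
            linear_combination hc
          rw [ha₂]
          field_simp
          ring
        rw [hexp2]
        have : (eps Q / p) ^ 2 * ((p : ℂ) ^ 2) = 1 := by
          rw [div_pow, heps]
          field_simp
        push_cast
        linear_combination (f ((-(c₂ / c₁)) • x) *
          ee p (-(c₂ / c₁) * (a₁ * ((a₂ * d₂ - 1) / c₂) + (a₁ * d₁ - 1) / c₁ * d₂) * Q x)) * this
      · -- Case D
        have hl : d₁ / c₁ + a₂ / c₂ ≠ 0 := by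
          intro h
          apply hc
          field_simp at h
          linear_combination h
        rw [opM_of_ne_zero _ _ hc]
        have hin : ∀ z : D, ∑ y : D, ee p ((d₁ / c₁ + a₂ / c₂) * Q y -
            polar Q y (c₁⁻¹ • x + c₂⁻¹ • z)) =
            eps Q * p * ee p (-(Q (c₁⁻¹ • x + c₂⁻¹ • z)) / (d₁ / c₁ + a₂ / c₂)) := by
          intro z
          rw [sum_e_quad_sub_polar hl, gaussQ_eq_eps_mul hp2 hQ hcard hl]
        simp only [hin]
        have hcoef : (eps Q / p) ^ 2 * (eps Q * p) = eps Q / p := by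
          have h3 : eps Q ^ 3 = eps Q := by rw [pow_succ, heps, one_mul]
          have h4 : (eps Q / p) ^ 2 * (eps Q * p) = eps Q ^ 3 / p := by
            field_simp
          rw [h4, h3]
        have hR : ∀ S : D → ℂ, (eps Q / p) * ∑ z : D, S z =
            (eps Q / p) ^ 2 * ∑ z : D, (eps Q * p) * S z := by
          intro S
          rw [← Finset.mul_sum, ← mul_assoc, hcoef]
        rw [hR]
        congr 1
        refine Finset.sum_congr rfl fun z _ => ?_
        have hexp3 : ee p (a₁ * Q x / c₁ + d₂ * Q z / c₂) *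
            ee p (-(Q (c₁⁻¹ • x + c₂⁻¹ • z)) / (d₁ / c₁ + a₂ / c₂)) =
            ee p (((a₁ * a₂ + (a₁ * d₁ - 1) / c₁ * c₂) * Q x - polar Q x z +
              (c₁ * ((a₂ * d₂ - 1) / c₂) + d₁ * d₂) * Q z) / (c₁ * a₂ + d₁ * c₂)) := by
          rw [← ee_add]
          congr 1
          rw [QuadraticMap.map_add (⇑Q), Q_smul, Q_smul, polar_smul_left, polar_smul_right,
            smul_eq_mul, smul_eq_mul]
          have hc' : c₂ * d₁ + c₁ * a₂ ≠ 0 := by
            intro h
            apply hc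
            linear_combination h
          have hl' : d₁ / c₁ + a₂ / c₂ = (c₂ * d₁ + c₁ * a₂) / (c₁ * c₂) := by
            field_simp
          have hc'' : c₁ * a₂ + d₁ * c₂ = c₂ * d₁ + c₁ * a₂ := by ring
          rw [hl', hc'']
          field_simp
          ring
        rw [← hexp3]
        ring

variable (Q)

/-- **The Weil representation** of `SL(2, ZMod p)` on functions `D → ℂ`. -/
noncomputable def rho (g : SL(2, ZMod p)) (f : D → ℂ) : D → ℂ :=
  opM Q (g 0 0) (g 0 1) (g 1 0) (g 1 1) f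

variable {Q}

omit [DecidableEq D] in
theorem rho_of_eq_zero (g : SL(2, ZMod p)) (hg : g 1 0 = 0) (f : D → ℂ) (x : D) :
    rho Q g f x = ee p (g 0 0 * g 0 1 * Q x) * f (g 0 0 • x) := by
  unfold rho
  rw [hg, opM_of_eq_zero]

omit [DecidableEq D] in
theorem rho_of_ne_zero (g : SL(2, ZMod p)) (hg : g 1 0 ≠ 0) (f : D → ℂ) (x : D) :
    rho Q g f x = (eps Q / p) *
      ∑ y : D, ee p ((g 0 0 * Q x - polar Q x y + g 1 1 * Q y) / g 1 0) * f y := by
  unfold rho
  rw [opM_of_ne_zero _ _ hg]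

omit [DecidableEq D] in
/-- **(W2)** An upper triangular matrix does not change the value at `0`. -/
theorem rho_apply_zero (g : SL(2, ZMod p)) (hg : g 1 0 = 0) (f : D → ℂ) :
    rho Q g f 0 = f 0 := by
  rw [rho_of_eq_zero g hg, QuadraticMap.map_zero, mul_zero, ee_zero, one_mul, smul_zero]

omit [DecidableEq D] in
theorem rho_one (f : D → ℂ) : rho Q (1 : SL(2, ZMod p)) f = f := by
  funext x
  rw [rho_of_eq_zero _ (by simp)]
  simp

/-- **(W1)** `rho` is multiplicative. -/
theorem rho_mul (hp2 : p ≠ 2) (hQ : Nondeg Q) (hcard : Fintype.card D = p ^ 2)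
    (g₁ g₂ : SL(2, ZMod p)) (f : D → ℂ) : rho Q (g₁ * g₂) f = rho Q g₁ (rho Q g₂ f) := by
  funext x
  have h₁ : g₁ 0 0 * g₁ 1 1 - g₁ 0 1 * g₁ 1 0 = 1 := by
    have := g₁.det_coe
    rwa [Matrix.det_fin_two] at this
  have h₂ : g₂ 0 0 * g₂ 1 1 - g₂ 0 1 * g₂ 1 0 = 1 := by
    have := g₂.det_coe
    rwa [Matrix.det_fin_two] at this
  unfold rho
  rw [opM_comp hp2 hQ hcard h₁ h₂]
  simp only [Matrix.SpecialLinearGroup.coe_mul, Matrix.mul_apply, Fin.sum_univ_two]

theorem map_entry (g : SL(2, ℤ)) (i j : Fin 2) :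
    (Matrix.SpecialLinearGroup.map (Int.castRingHom (ZMod p)) g) i j = ((g i j : ℤ) : ZMod p) := by
  rw [Matrix.SpecialLinearGroup.map_apply_coe, RingHom.mapMatrix_apply, Matrix.map_apply]
  rfl

omit [DecidableEq D] in
/-- The action of (the reduction of) `T = (1 1; 0 1)`. -/
theorem rho_T (f : D → ℂ) (x : D) :
    rho Q (Matrix.SpecialLinearGroup.map (Int.castRingHom (ZMod p)) ModularGroup.T) f x =
      ee p (Q x) * f x := by
  have h10 : (Matrix.SpecialLinearGroup.map (Int.castRingHom (ZMod p)) ModularGroup.T) 1 0 = 0 := by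
    rw [map_entry, ModularGroup.coe_T]; simp
  have h00 : (Matrix.SpecialLinearGroup.map (Int.castRingHom (ZMod p)) ModularGroup.T) 0 0 = 1 := by
    rw [map_entry, ModularGroup.coe_T]; simp
  have h01 : (Matrix.SpecialLinearGroup.map (Int.castRingHom (ZMod p)) ModularGroup.T) 0 1 = 1 := by
    rw [map_entry, ModularGroup.coe_T]; simp
  rw [rho_of_eq_zero _ h10, h00, h01, one_mul, one_mul, one_smul]

omit [DecidableEq D] in
/-- The action of (the reduction of) `S = (0 -1; 1 0)`: a normalised Fourier transform. -/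
theorem rho_S (f : D → ℂ) (x : D) :
    rho Q (Matrix.SpecialLinearGroup.map (Int.castRingHom (ZMod p)) ModularGroup.S) f x =
      (eps Q / p) * ∑ y : D, ee p (-(polar Q x y)) * f y := by
  have h10 : (Matrix.SpecialLinearGroup.map (Int.castRingHom (ZMod p)) ModularGroup.S) 1 0 = 1 := by
    rw [map_entry, ModularGroup.coe_S]; simp
  have h00 : (Matrix.SpecialLinearGroup.map (Int.castRingHom (ZMod p)) ModularGroup.S) 0 0 = 0 := by
    rw [map_entry, ModularGroup.coe_S]; simp
  have h11 : (Matrix.SpecialLinearGroup.map (Int.castRingHom (ZMod p)) ModularGroup.S) 1 1 = 0 := by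
    rw [map_entry, ModularGroup.coe_S]; simp
  rw [rho_of_ne_zero _ (by rw [h10]; exact one_ne_zero), h10, h00, h11]
  congr 1
  refine Finset.sum_congr rfl fun y _ => ?_
  congr 2
  ring

/-- For every word in the generators: `rho` is a monoid homomorphism into `Function.End`. -/
noncomputable def rhoHom (hp2 : p ≠ 2) (hQ : Nondeg Q) (hcard : Fintype.card D = p ^ 2) :
    SL(2, ZMod p) →* Function.End (D → ℂ) where
  toFun g := rho Q g
  map_one' := by funext f; exact rho_one f
  map_mul' g₁ g₂ := by funext f; exact rho_mul hp2 hQ hcard g₁ g₂ f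

end Fermat.Agent.S16.Weil45
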